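/-
DELTA / BASE-CHANGE (helper9), part 1: **constant field extensions are unramified**.

`ι : F → F''` fields, `V''` a discrete valuation subring of `F''`, `V = V''.comap ι` a discrete
valuation subring of `F` containing a field `L` of characteristic zero, `F''` generated as a field
by `ι(F)` and elements algebraic over `L`.  Then `dlOrd V'' (ι f) = dlOrd V f` (`dlb_ord_comap`).

Proof.  For `θ` algebraic over `L` with (separable) minimal polynomial `g` and `P ∈ V[X]` with
`P(θ) ∈ 𝔪''`: `d̄ = gcd(P̄, ḡ)`, `ḡ = d̄ r̄`, `d̄`, `r̄` coprime; lifting the identities from `κ[X]` to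
`V[X]` modulo `π`: `r(θ)` is a unit of `V''` and `P(θ) r(θ) ∈ π V''[θ]` (`dlb_stepA`).  By induction
every element `P(θ)/R(θ)` (`R(θ)` a unit) has order divisible by `e = ord (ι π)` (`dlb_stepB`);
applied to a uniformiser of `V''` this gives `e = 1`.
-/
import Mathlib
import Fermat.Agent.Lib.Delta.Node.Ord

set_option autoImplicit false
set_option linter.unusedSectionVars false
set_option linter.unusedVariables false
set_option linter.style.haveILetI false

namespace Fermat.Agent.Delta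

open Polynomial

section Core

variable {L F F'' : Type*} [Field L] [CharZero L] [Field F] [Field F''] [Algebra L F]
  [Algebra L F''] (ι : F →+* F'') (hι : ∀ c : L, ι (algebraMap L F c) = algebraMap L F'' c)
  (V'' : ValuationSubring F'') (V : ValuationSubring F) (hV : V = V''.comap ι)
  (hL : ∀ c : L, algebraMap L F c ∈ V)

/-- the coefficient map `V → F''` -/
def dlbPhi : ↥V →+* F'' := ι.comp V.subtype

theorem dlbPhi_apply (a : ↥V) : dlbPhi ι V a = ι (a : F) := rfl

include hV in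
theorem dlb_mem_iff (x : F) : x ∈ V ↔ ι x ∈ V'' := by
  rw [hV, ValuationSubring.mem_comap]

include hV in
theorem dlbPhi_mem (a : ↥V) : dlbPhi ι V a ∈ V'' :=
  (dlb_mem_iff ι V'' V hV _).mp a.2

/-- the constants as elements of `V` -/
def dlbJ : L →+* ↥V := (algebraMap L F).codRestrict V.toSubring hL

include hι in
theorem dlbPhi_J (c : L) : dlbPhi ι V (dlbJ V hL c) = algebraMap L F'' c := hι c

include hι hV hL in
/-- elements integral over `L` lie in `V''` -/
theorem dlb_mem_of_isIntegral {θ : F''} (hθ : IsIntegral L θ) : θ ∈ V'' := by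
  have h1 : IsIntegral ↥V'' θ := by
    obtain ⟨g, hg, hg0⟩ := hθ
    let j'' : L →+* ↥V'' := (algebraMap L F'').codRestrict V''.toSubring (fun c => by
      rw [← hι c]
      exact dlbPhi_mem ι V'' V hV ⟨algebraMap L F c, hL c⟩)
    refine ⟨g.map j'', hg.map j'', ?_⟩
    rw [eval₂_map]
    exact hg0
  obtain ⟨y, hy⟩ := (IsIntegrallyClosed.isIntegral_iff (R := ↥V'') (K := F'')).mp h1
  rw [← hy]
  exact y.2

include hV in
/-- values of polynomials with coefficients in `V` at elements of `V''` lie in `V''` -/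
theorem dlb_eval_mem {θ : F''} (hθ : θ ∈ V'') (P : (↥V)[X]) : eval₂ (dlbPhi ι V) θ P ∈ V'' := by
  rw [eval₂_eq_sum_range]
  exact Subring.sum_mem _ fun i _ =>
    Subring.mul_mem _ (dlbPhi_mem ι V'' V hV _) (Subring.pow_mem _ hθ i)

section Lift

variable {R : Type*} [CommRing R] [IsLocalRing R] {π : R}
  (hπ : IsLocalRing.maximalIdeal R = Ideal.span {π})

include hπ in
/-- two polynomials with the same reduction differ by a multiple of `π` -/
theorem dlb_lift_eq {A B : R[X]}
    (h : A.map (IsLocalRing.residue R) = B.map (IsLocalRing.residue R)) :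
    ∃ T : R[X], A = B + C π * T := by
  have h1 : C π ∣ A - B := by
    rw [C_dvd_iff_dvd_coeff]
    intro i
    have h2 : IsLocalRing.residue R ((A - B).coeff i) = 0 := by
      rw [coeff_sub, map_sub, ← coeff_map, ← coeff_map, h, sub_self]
    rw [IsLocalRing.residue_eq_zero_iff, hπ, Ideal.mem_span_singleton] at h2
    exact h2
  obtain ⟨T, hT⟩ := h1
  exact ⟨T, by rw [← hT]; ring⟩

theorem dlb_exists_lift (p : (IsLocalRing.ResidueField R)[X]) :
    ∃ P : R[X], P.map (IsLocalRing.residue R) = p :=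
  map_surjective _ IsLocalRing.residue_surjective p

end Lift

variable [IsDiscreteValuationRing ↥V'']

include hV in
/-- a non-unit of `V` is a non-unit of `V''` -/
theorem dlb_lt_one_of_not_isUnit {a : ↥V} (ha : ¬ IsUnit a) : V''.valuation (ι (a : F)) < 1 := by
  have h3 : V''.valuation (ι (a : F)) ≤ 1 :=
    (V''.valuation_le_one_iff _).mpr (dlbPhi_mem ι V'' V hV a)
  refine lt_of_le_of_ne h3 fun h4 => ha ?_
  have h5 : (a : F) ≠ 0 := by
    intro h0
    rw [h0, map_zero, map_zero] at h4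
    exact zero_ne_one h4
  have h6 : V''.valuation (ι (a : F)⁻¹) ≤ 1 := by
    rw [map_inv₀, map_inv₀, h4, inv_one]
  have h7 : (a : F)⁻¹ ∈ V :=
    (dlb_mem_iff ι V'' V hV _).mpr ((V''.valuation_le_one_iff _).mp h6)
  exact isUnit_iff_exists_inv.mpr ⟨⟨(a : F)⁻¹, h7⟩, Subtype.ext (mul_inv_cancel₀ h5)⟩

include hV in
/-- a unit of `V` is a unit of `V''` -/
theorem dlb_eq_one_of_isUnit {a : ↥V} (ha : IsUnit a) : V''.valuation (ι (a : F)) = 1 := by
  obtain ⟨b, hb⟩ := isUnit_iff_exists_inv.mp ha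
  have h1 : ι (a : F) * ι (b : F) = 1 := by
    rw [← map_mul]
    have := congrArg (fun x : ↥V => ι (x : F)) hb
    simpa using this
  have h2 : V''.valuation (ι (a : F)) * V''.valuation (ι (b : F)) = 1 := by
    rw [← map_mul, h1, map_one]
  have ha1 : V''.valuation (ι (a : F)) ≤ 1 :=
    (V''.valuation_le_one_iff _).mpr (dlbPhi_mem ι V'' V hV a)
  have hb1 : V''.valuation (ι (b : F)) ≤ 1 :=
    (V''.valuation_le_one_iff _).mpr (dlbPhi_mem ι V'' V hV b)
  refine le_antisymm ha1 ?_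
  by_contra h3
  push Not at h3
  have h4 : V''.valuation (ι (a : F)) * V''.valuation (ι (b : F)) < 1 := by
    calc V''.valuation (ι (a : F)) * V''.valuation (ι (b : F))
        ≤ V''.valuation (ι (a : F)) * 1 := mul_le_mul_right hb1 _
      _ = V''.valuation (ι (a : F)) := mul_one _
      _ < 1 := h3
  rw [h2] at h4
  exact lt_irrefl _ h4

include hι hV hL in
/-- **the key step**: if `P(θ)` is a non-unit of `V''` then `P(θ) R(θ) = π Q(θ)` with `R(θ)` a unit -/
theorem dlb_stepA [IsLocalRing ↥V] {π : ↥V}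
    (hπ : IsLocalRing.maximalIdeal ↥V = Ideal.span {π}) {θ : F''} (hθ : IsIntegral L θ)
    (P : (↥V)[X]) (hP : V''.valuation (eval₂ (dlbPhi ι V) θ P) < 1) :
    ∃ Q R : (↥V)[X], V''.valuation (eval₂ (dlbPhi ι V) θ R) = 1 ∧
      eval₂ (dlbPhi ι V) θ P * eval₂ (dlbPhi ι V) θ R =
        ι (π : F) * eval₂ (dlbPhi ι V) θ Q := by
  classical
  have hθV : θ ∈ V'' := dlb_mem_of_isIntegral ι hι V'' V hV hL hθ
  set E : (↥V)[X] →+* F'' := eval₂RingHom (dlbPhi ι V) θ with hE
  have hEapp : ∀ A : (↥V)[X], E A = eval₂ (dlbPhi ι V) θ A := fun A => rfl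
  have hEmem : ∀ A : (↥V)[X], V''.valuation (E A) ≤ 1 := fun A =>
    (V''.valuation_le_one_iff _).mpr (dlb_eval_mem ι V'' V hV hθV A)
  have hEπ : E (C π) = ι (π : F) := by
    rw [hEapp, eval₂_C]
    rfl
  have hπlt : V''.valuation (ι (π : F)) < 1 := by
    have h1 : π ∈ IsLocalRing.maximalIdeal ↥V := by
      rw [hπ]
      exact Ideal.mem_span_singleton_self π
    have h2 : ¬ IsUnit π := h1
    have h3 : V''.valuation (ι (π : F)) ≤ 1 :=
      (V''.valuation_le_one_iff _).mpr (dlbPhi_mem ι V'' V hV π)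
    refine lt_of_le_of_ne h3 fun h4 => h2 ?_
    -- `π⁻¹ ∈ V`
    have h5 : (π : F) ≠ 0 := by
      intro h0
      rw [h0, map_zero, map_zero] at h4
      exact zero_ne_one h4
    have h6 : V''.valuation (ι (π : F)⁻¹) ≤ 1 := by
      rw [map_inv₀, map_inv₀, h4, inv_one]
    have h7 : (π : F)⁻¹ ∈ V :=
      (dlb_mem_iff ι V'' V hV _).mpr ((V''.valuation_le_one_iff _).mp h6)
    exact isUnit_iff_exists_inv.mpr ⟨⟨(π : F)⁻¹, h7⟩, Subtype.ext (mul_inv_cancel₀ h5)⟩
  -- the minimal polynomial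
  set g : L[X] := minpoly L θ with hg
  set G : (↥V)[X] := g.map (dlbJ V hL) with hG
  have hEG : E G = 0 := by
    rw [hEapp, hG, eval₂_map]
    have h1 : (dlbPhi ι V).comp (dlbJ V hL) = algebraMap L F'' :=
      RingHom.ext fun c => dlbPhi_J ι hι V hL c
    rw [h1]
    exact minpoly.aeval L θ
  set res := IsLocalRing.residue ↥V with hres
  have hsep : (G.map res).Separable := by
    rw [hG, Polynomial.map_map]
    exact ((minpoly.irreducible hθ).separable).map
  -- the gcd
  set Pb := P.map res with hPb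
  set Gb := G.map res with hGb
  set db := EuclideanDomain.gcd Pb Gb with hdb
  obtain ⟨rb, hrb⟩ : db ∣ Gb := EuclideanDomain.gcd_dvd_right Pb Gb
  obtain ⟨qb, hqb⟩ : db ∣ Pb := EuclideanDomain.gcd_dvd_left Pb Gb
  have hbez : db = Pb * EuclideanDomain.gcdA Pb Gb + Gb * EuclideanDomain.gcdB Pb Gb :=
    EuclideanDomain.gcd_eq_gcd_ab Pb Gb
  have hcop : IsCoprime db rb := by
    rw [hrb] at hsep
    exact hsep.isCoprime
  obtain ⟨xb, yb, hxy⟩ := hcop
  -- the lifts
  obtain ⟨U, hU⟩ := dlb_exists_lift (EuclideanDomain.gcdA Pb Gb)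
  obtain ⟨W, hW⟩ := dlb_exists_lift (EuclideanDomain.gcdB Pb Gb)
  obtain ⟨Rr, hRr⟩ := dlb_exists_lift rb
  obtain ⟨Qq, hQq⟩ := dlb_exists_lift qb
  obtain ⟨Xx, hXx⟩ := dlb_exists_lift xb
  obtain ⟨Yy, hYy⟩ := dlb_exists_lift yb
  obtain ⟨Dd, hDd⟩ := dlb_exists_lift db
  -- (i)
  obtain ⟨T₁, hT₁⟩ := dlb_lift_eq hπ (A := Dd) (B := P * U + G * W) (by
    rw [Polynomial.map_add, Polynomial.map_mul, Polynomial.map_mul, hDd, hU, hW]
    exact hbez)
  -- (ii)
  obtain ⟨T₂, hT₂⟩ := dlb_lift_eq hπ (A := Xx * Dd + Yy * Rr) (B := 1) (by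
    rw [Polynomial.map_add, Polynomial.map_mul, Polynomial.map_mul, hXx, hDd, hYy, hRr,
      Polynomial.map_one]
    exact hxy)
  -- (iii)
  obtain ⟨T₃, hT₃⟩ := dlb_lift_eq hπ (A := P * Rr) (B := Qq * G) (by
    rw [Polynomial.map_mul, Polynomial.map_mul, hRr, hQq]
    show Pb * rb = qb * Gb
    rw [hqb, hrb]
    ring)
  have hED : V''.valuation (E Dd) < 1 := by
    have h0 : E Dd = E P * E U + ι (π : F) * E T₁ := by
      have := congrArg E hT₁
      rw [RingHom.map_add, RingHom.map_add, RingHom.map_mul, RingHom.map_mul, RingHom.map_mul,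
        hEG, zero_mul, add_zero, hEπ] at this
      exact this
    rw [h0]
    refine lt_of_le_of_lt (Valuation.map_add _ _ _) (max_lt ?_ ?_)
    · rw [map_mul]
      calc V''.valuation (E P) * V''.valuation (E U) ≤ V''.valuation (E P) * 1 :=
            mul_le_mul_right (hEmem U) _
        _ = V''.valuation (E P) := mul_one _
        _ < 1 := hP
    · rw [map_mul]
      calc V''.valuation (ι (π : F)) * V''.valuation (E T₁) ≤ V''.valuation (ι (π : F)) * 1 :=
            mul_le_mul_right (hEmem T₁) _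
        _ = V''.valuation (ι (π : F)) := mul_one _
        _ < 1 := hπlt
  have hER : V''.valuation (E Rr) = 1 := by
    have h1 : E Yy * E Rr = 1 + (ι (π : F) * E T₂ - E Xx * E Dd) := by
      have := congrArg E hT₂
      rw [RingHom.map_add, RingHom.map_add, RingHom.map_mul, RingHom.map_mul, RingHom.map_mul,
        RingHom.map_one, hEπ] at this
      linear_combination this
    have h2 : V''.valuation (ι (π : F) * E T₂ - E Xx * E Dd) < 1 := by
      refine lt_of_le_of_lt (Valuation.map_sub _ _ _) (max_lt ?_ ?_)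
      · rw [map_mul]
        calc V''.valuation (ι (π : F)) * V''.valuation (E T₂) ≤ V''.valuation (ι (π : F)) * 1 :=
              mul_le_mul_right (hEmem T₂) _
          _ = V''.valuation (ι (π : F)) := mul_one _
          _ < 1 := hπlt
      · rw [map_mul]
        calc V''.valuation (E Xx) * V''.valuation (E Dd) ≤ 1 * V''.valuation (E Dd) :=
              mul_le_mul_left (hEmem Xx) _
          _ = V''.valuation (E Dd) := one_mul _
          _ < 1 := hED
    have h3 : V''.valuation (E Yy * E Rr) = 1 := by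
      rw [h1]
      have := Valuation.map_add_eq_of_lt_left (V''.valuation) (x := (1 : F''))
        (y := ι (π : F) * E T₂ - E Xx * E Dd) (by rw [map_one]; exact h2)
      rw [this, map_one]
    rw [map_mul] at h3
    refine le_antisymm (hEmem Rr) ?_
    by_contra h4
    push Not at h4
    have h5 : V''.valuation (E Yy) * V''.valuation (E Rr) < 1 := by
      calc V''.valuation (E Yy) * V''.valuation (E Rr) ≤ 1 * V''.valuation (E Rr) :=
            mul_le_mul_left (hEmem Yy) _
        _ = V''.valuation (E Rr) := one_mul _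
        _ < 1 := h4
    rw [h3] at h5
    exact lt_irrefl _ h5
  refine ⟨T₃, Rr, hER, ?_⟩
  have := congrArg E hT₃
  rw [RingHom.map_mul, RingHom.map_add, RingHom.map_mul, RingHom.map_mul, hEG, mul_zero,
    zero_add, hEπ] at this
  exact this

include hι hV hL in
/-- **the induction**: the order of `P(θ) / R(θ)` (`R(θ)` a unit) is a multiple of `e = ord (ι π)` -/
theorem dlb_stepB [IsDiscreteValuationRing ↥V] {π : ↥V} (hπ : Irreducible π) {θ : F''}
    (hθ : IsIntegral L θ) :
    ∀ (n : ℕ) (y : F'') (P R : (↥V)[X]), y ≠ 0 →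
      V''.valuation (eval₂ (dlbPhi ι V) θ R) = 1 →
      y * eval₂ (dlbPhi ι V) θ R = eval₂ (dlbPhi ι V) θ P → dlOrd V'' y = n →
      dlOrd V'' (ι (π : F)) ∣ (n : ℤ) := by
  have hθV : θ ∈ V'' := dlb_mem_of_isIntegral ι hι V'' V hV hL hθ
  have hπ0 : ι (π : F) ≠ 0 := by
    rw [Ne, map_eq_zero]
    exact fun h => hπ.ne_zero (Subtype.ext h)
  have hπlt : V''.valuation (ι (π : F)) < 1 := dlb_lt_one_of_not_isUnit ι V'' V hV hπ.not_isUnit
  have he : 0 < dlOrd V'' (ι (π : F)) := (dl_valuation_lt_one_iff V'' hπ0).mp hπlt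
  intro n
  induction n using Nat.strong_induction_on with
  | _ n ih =>
    intro y P R hy hR hyR hn
    by_cases hn0 : n = 0
    · rw [hn0]
      exact dvd_zero _
    have hnpos : 0 < dlOrd V'' y := by rw [hn]; exact_mod_cast Nat.pos_of_ne_zero hn0
    have hylt : V''.valuation y < 1 := (dl_valuation_lt_one_iff V'' hy).mpr hnpos
    have hPlt : V''.valuation (eval₂ (dlbPhi ι V) θ P) < 1 := by
      rw [← hyR, map_mul, hR, mul_one]
      exact hylt
    obtain ⟨Q, R', hR', hQ⟩ := dlb_stepA ι hι V'' V hV hL hπ.maximalIdeal_eq hθ P hPlt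
    have hRR' : V''.valuation (eval₂ (dlbPhi ι V) θ (R * R')) = 1 := by
      rw [eval₂_mul, map_mul, hR, hR', mul_one]
    have hy' : y / ι (π : F) ≠ 0 := div_ne_zero hy hπ0
    have hrel : y / ι (π : F) * eval₂ (dlbPhi ι V) θ (R * R') = eval₂ (dlbPhi ι V) θ Q := by
      rw [eval₂_mul]
      field_simp
      rw [← hQ, ← hyR]
    have hQmem : V''.valuation (eval₂ (dlbPhi ι V) θ Q) ≤ 1 :=
      (V''.valuation_le_one_iff _).mpr (dlb_eval_mem ι V'' V hV hθV Q)
    have hy'mem : y / ι (π : F) ∈ V'' := by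
      rw [← V''.valuation_le_one_iff]
      have := congrArg V''.valuation hrel
      rw [map_mul, hRR', mul_one] at this
      rw [this]
      exact hQmem
    have hord : dlOrd V'' (y / ι (π : F)) = (n : ℤ) - dlOrd V'' (ι (π : F)) := by
      rw [dlOrd_div V'' hy hπ0, hn]
    have hnn : 0 ≤ dlOrd V'' (y / ι (π : F)) := dlOrd_nonneg_of_mem V'' hy'mem
    have hm : ((dlOrd V'' (y / ι (π : F))).toNat : ℤ) = dlOrd V'' (y / ι (π : F)) :=
      Int.toNat_of_nonneg hnn
    have hlt : (dlOrd V'' (y / ι (π : F))).toNat < n := by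
      have : ((dlOrd V'' (y / ι (π : F))).toNat : ℤ) < n := by
        rw [hm, hord]
        omega
      exact_mod_cast this
    have h1 := ih _ hlt (y / ι (π : F)) Q (R * R') hy' hRR' hrel hm.symm
    rw [hm, hord] at h1
    have h2 := dvd_add h1 (dvd_refl (dlOrd V'' (ι (π : F))))
    rwa [sub_add_cancel] at h2

end Core

/-! ### Representation of the elements of `F''` -/

section Repr

variable {L F F'' : Type*} [Field L] [CharZero L] [Field F] [Field F''] [Algebra L F]
  [Algebra L F''] (ι : F →+* F'') (hι : ∀ c : L, ι (algebraMap L F c) = algebraMap L F'' c)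

include hι in
/-- every element of the field generated by `ι(F)` and `L`-integral elements is an `ι(F)`-linear
combination of `L`-integral elements -/
theorem dlb_exists_comb (S : Set F'') (hS : ∀ s ∈ S, IsIntegral L s)
    (hgen : ∀ y : F'', y ∈ Subfield.closure (Set.range ι ∪ S)) (y : F'') :
    ∃ (n : ℕ) (a : Fin n → F) (c : Fin n → F''), (∀ i, IsIntegral L (c i)) ∧
      y = ∑ i, ι (a i) * c i := by
  classical
  set K₀ : Subfield F'' := ι.fieldRange with hK₀
  set 𝒜 : Set F'' := {x | IsIntegral L x} with h𝒜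
  have h𝒜mul : ∀ x ∈ 𝒜, ∀ x' ∈ 𝒜, x * x' ∈ 𝒜 := fun x hx x' hx' => IsIntegral.mul hx hx'
  have h𝒜one : (1 : F'') ∈ 𝒜 := isIntegral_one
  let j₀ : L →+* ↥K₀ := (algebraMap L F'').codRestrict K₀.toSubring (fun c =>
    ⟨algebraMap L F c, hι c⟩)
  have hint : ∀ x ∈ 𝒜, IsIntegral ↥K₀ x := by
    rintro x ⟨g, hg, hg0⟩
    refine ⟨g.map j₀, hg.map j₀, ?_⟩
    rw [eval₂_map]
    exact hg0
  set M : Subalgebra ↥K₀ F'' := Algebra.adjoin ↥K₀ 𝒜 with hM
  haveI : Algebra.IsIntegral ↥K₀ ↥M := Algebra.IsIntegral.adjoin hint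
  have hMalg : ∀ x : ↥M, IsAlgebraic ↥K₀ (x : F'') := by
    intro x
    have h1 : IsIntegral ↥K₀ x := Algebra.IsIntegral.isIntegral x
    have h2 : IsIntegral ↥K₀ (M.val x) := h1.map M.val
    exact h2.isAlgebraic
  have hMinv : ∀ x ∈ M, x⁻¹ ∈ M := fun x hx => M.inv_mem_of_algebraic (x := ⟨x, hx⟩) (hMalg _)
  let Mf : Subfield F'' := { M.toSubring with inv_mem' := hMinv }
  have hle : Subfield.closure (Set.range ι ∪ S) ≤ Mf := by
    rw [Subfield.closure_le]
    rintro x (⟨f, rfl⟩ | hx)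
    · exact M.algebraMap_mem (⟨ι f, ⟨f, rfl⟩⟩ : ↥K₀)
    · exact Algebra.subset_adjoin (hS x hx)
  have hyM : y ∈ M := hle (hgen y)
  have hspan : (Subalgebra.toSubmodule M : Submodule ↥K₀ F'') = Submodule.span ↥K₀ 𝒜 := by
    rw [hM, Algebra.adjoin_eq_span]
    congr 1
    have h1 : (𝒜 : Set F'') = ((integralClosure L F'').toSubmonoid : Set F'') := rfl
    rw [h1, Submonoid.closure_eq]
  have hy2 : y ∈ Submodule.span ↥K₀ 𝒜 := by
    rw [← hspan]
    exact hyM
  obtain ⟨n, f, g, hfg⟩ := Submodule.mem_span_set'.mp hy2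
  have hf : ∀ i, ∃ a : F, ι a = ((f i : ↥K₀) : F'') := fun i => (f i).2
  choose a ha using hf
  refine ⟨n, a, fun i => (g i : F''), fun i => (g i).2, ?_⟩
  rw [← hfg]
  refine Finset.sum_congr rfl fun i _ => ?_
  rw [ha i]
  rfl

open IntermediateField in
/-- **primitive element**: finitely many `L`-integral elements are polynomials in one -/
theorem dlb_exists_primitive {n : ℕ} (c : Fin n → F'') (hc : ∀ i, IsIntegral L (c i)) :
    ∃ θ : F'', IsIntegral L θ ∧ ∀ i, ∃ C : L[X], aeval θ C = c i := by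
  classical
  set E : IntermediateField L F'' := IntermediateField.adjoin L (Set.range c) with hE
  haveI : FiniteDimensional L ↥E :=
    IntermediateField.finiteDimensional_adjoin (by rintro _ ⟨i, rfl⟩; exact hc i)
  obtain ⟨α, hα⟩ := Field.exists_primitive_element L ↥E
  have hαint : IsIntegral L α := IsIntegral.of_finite L α
  refine ⟨(α : F''), hαint.map E.val, fun i => ?_⟩
  have hci : c i ∈ E := IntermediateField.subset_adjoin L _ ⟨i, rfl⟩
  have h1 : (⟨c i, hci⟩ : ↥E) ∈ L⟮α⟯ := by rw [hα]; exact IntermediateField.mem_top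
  have h2 : (⟨c i, hci⟩ : ↥E) ∈ L⟮α⟯.toSubalgebra := h1
  rw [IntermediateField.adjoin_simple_toSubalgebra_of_isAlgebraic hαint.isAlgebraic,
    Algebra.adjoin_singleton_eq_range_aeval] at h2
  obtain ⟨C, hC⟩ := h2
  refine ⟨C, ?_⟩
  have h3 := Polynomial.aeval_algHom_apply E.val α C
  rw [show E.val α = (α : F'') from rfl] at h3
  rw [h3]
  have : (aeval α) C = (⟨c i, hci⟩ : ↥E) := hC
  rw [this]
  rfl

end Repr

/-! ### The main theorem -/

section Main

variable {L F F'' : Type*} [Field L] [CharZero L] [Field F] [Field F''] [Algebra L F]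
  [Algebra L F''] (ι : F →+* F'') (hι : ∀ c : L, ι (algebraMap L F c) = algebraMap L F'' c)
  (V'' : ValuationSubring F'') (V : ValuationSubring F) (hV : V = V''.comap ι)
  (hL : ∀ c : L, algebraMap L F c ∈ V) [IsDiscreteValuationRing ↥V'']
  [IsDiscreteValuationRing ↥V]

/-- a common denominator -/
theorem dlb_exists_denom {n : ℕ} (a : Fin n → F) :
    ∃ d : ↥V, d ≠ 0 ∧ ∀ i, (d : F) * a i ∈ V := by
  obtain ⟨π, hπ⟩ := IsDiscreteValuationRing.exists_irreducible ↥V
  have hπ1 : dlOrd V (π : F) = 1 := dlOrd_coe_irreducible V hπ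
  have hπ0 : (π : F) ≠ 0 := fun h => hπ.ne_zero (Subtype.ext h)
  set k : ℕ := Finset.univ.sup (fun i => (-dlOrd V (a i)).toNat) with hk
  refine ⟨π ^ k, pow_ne_zero k hπ.ne_zero, fun i => ?_⟩
  rw [dl_mem_iff]
  by_cases hai : a i = 0
  · left
    rw [hai, mul_zero]
  · right
    have h1 : ((π ^ k : ↥V) : F) = (π : F) ^ k := by simp
    rw [h1, dlOrd_mul V (pow_ne_zero k hπ0) hai, dlOrd_pow, hπ1, mul_one]
    have h2 : (-dlOrd V (a i)).toNat ≤ k :=
      Finset.le_sup (f := fun i => (-dlOrd V (a i)).toNat) (Finset.mem_univ i)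
    have h3 : -dlOrd V (a i) ≤ ((-dlOrd V (a i)).toNat : ℤ) := Int.self_le_toNat _
    have h4 : ((-dlOrd V (a i)).toNat : ℤ) ≤ (k : ℤ) := by exact_mod_cast h2
    omega

include hι hV hL in
/-- **a uniformiser of `V` stays a uniformiser of `V''`** -/
theorem dlb_ord_pi (S : Set F'') (hS : ∀ s ∈ S, IsIntegral L s)
    (hgen : ∀ y : F'', y ∈ Subfield.closure (Set.range ι ∪ S)) {π : ↥V} (hπ : Irreducible π) :
    dlOrd V'' (ι (π : F)) = 1 := by
  classical
  have hπ0 : ι (π : F) ≠ 0 := by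
    rw [Ne, map_eq_zero]
    exact fun h => hπ.ne_zero (Subtype.ext h)
  have hπlt : V''.valuation (ι (π : F)) < 1 := dlb_lt_one_of_not_isUnit ι V'' V hV hπ.not_isUnit
  have he : 0 < dlOrd V'' (ι (π : F)) := (dl_valuation_lt_one_iff V'' hπ0).mp hπlt
  obtain ⟨ϖ, -, hϖ⟩ := dl_exists_ord_eq_one V''
  have hϖ0 : ϖ ≠ 0 := by rintro rfl; simp at hϖ
  obtain ⟨n, a, c, hc, hsum⟩ := dlb_exists_comb ι hι S hS hgen ϖ
  obtain ⟨θ, hθ, hC⟩ := dlb_exists_primitive c hc
  choose Cc hCc using hC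
  obtain ⟨d, hd0, hd⟩ := dlb_exists_denom V a
  -- the polynomial
  set P : (↥V)[X] := ∑ i, C (⟨(d : F) * a i, hd i⟩ : ↥V) * (Cc i).map (dlbJ V hL) with hP
  have hφj : (dlbPhi ι V).comp (dlbJ V hL) = algebraMap L F'' :=
    RingHom.ext fun c => dlbPhi_J ι hι V hL c
  have hevalP : eval₂ (dlbPhi ι V) θ P = ϖ * ι (d : F) := by
    rw [hP, eval₂_finsetSum, hsum, Finset.sum_mul]
    refine Finset.sum_congr rfl fun i _ => ?_
    rw [eval₂_mul, eval₂_C, eval₂_map, hφj, ← aeval_def, hCc i, dlbPhi_apply]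
    show ι ((d : F) * a i) * c i = _
    rw [map_mul]
    ring
  have hd0' : ι (d : F) ≠ 0 := by
    rw [Ne, map_eq_zero]
    exact fun h => hd0 (Subtype.ext h)
  -- the order of `ι d`
  obtain ⟨k, u, hu⟩ := IsDiscreteValuationRing.eq_unit_mul_pow_irreducible hd0 hπ
  have hordd : dlOrd V'' (ι (d : F)) = k * dlOrd V'' (ι (π : F)) := by
    have h1 : ι (d : F) = ι ((u : ↥V) : F) * ι (π : F) ^ k := by
      rw [hu]
      simp
    have hu1 : V''.valuation (ι ((u : ↥V) : F)) = 1 := dlb_eq_one_of_isUnit ι V'' V hV u.isUnit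
    have hu0 : ι ((u : ↥V) : F) ≠ 0 := by
      intro h0
      rw [h0, map_zero] at hu1
      exact zero_ne_one hu1
    rw [h1, dlOrd_mul V'' hu0 (pow_ne_zero k hπ0), dlOrd_pow,
      (dl_valuation_eq_one_iff V'' hu0).mp hu1, zero_add]
  have hy0 : ϖ * ι (d : F) ≠ 0 := mul_ne_zero hϖ0 hd0'
  have hordy : dlOrd V'' (ϖ * ι (d : F)) = 1 + k * dlOrd V'' (ι (π : F)) := by
    rw [dlOrd_mul V'' hϖ0 hd0', hϖ, hordd]
  have hnn : 0 ≤ 1 + (k : ℤ) * dlOrd V'' (ι (π : F)) := by positivity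
  have hdvd := dlb_stepB ι hι V'' V hV hL hπ hθ (1 + (k : ℤ) * dlOrd V'' (ι (π : F))).toNat
    (ϖ * ι (d : F)) P 1 hy0 (by rw [eval₂_one, map_one]) (by rw [eval₂_one, mul_one, hevalP])
    (by rw [hordy, Int.toNat_of_nonneg hnn])
  rw [Int.toNat_of_nonneg hnn] at hdvd
  have h1 : dlOrd V'' (ι (π : F)) ∣ 1 := by
    have h2 := dvd_sub hdvd (Dvd.intro_left (k : ℤ) rfl)
    rwa [add_sub_cancel_right] at h2
  exact Int.eq_one_of_dvd_one he.le h1

include hι hV hL in
/-- **constant field extensions are unramified**: `ord_{V''} (ι f) = ord_V f` -/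
theorem dlb_ord_comap (S : Set F'') (hS : ∀ s ∈ S, IsIntegral L s)
    (hgen : ∀ y : F'', y ∈ Subfield.closure (Set.range ι ∪ S)) (f : F) :
    dlOrd V'' (ι f) = dlOrd V f := by
  by_cases hf : f = 0
  · rw [hf, map_zero, dlOrd_zero, dlOrd_zero]
  obtain ⟨π, hπ⟩ := IsDiscreteValuationRing.exists_irreducible ↥V
  have hπ1 : dlOrd V (π : F) = 1 := dlOrd_coe_irreducible V hπ
  have hπ0 : (π : F) ≠ 0 := fun h => hπ.ne_zero (Subtype.ext h)
  obtain ⟨u, hu1, hfu⟩ := dl_exists_unit_mul_zpow V hπ1 hf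
  have huV : u ∈ V := (V.valuation_le_one_iff u).mp hu1.le
  have huU : IsUnit (⟨u, huV⟩ : ↥V) := (V.valuation_eq_one_iff ⟨u, huV⟩).mpr hu1
  have hu1'' : V''.valuation (ι u) = 1 := dlb_eq_one_of_isUnit ι V'' V hV huU
  have hu0 : ι u ≠ 0 := by
    intro h0
    rw [h0, map_zero] at hu1''
    exact zero_ne_one hu1''
  have hιπ0 : ι (π : F) ≠ 0 := (map_ne_zero ι).mpr hπ0
  have h1 : ι f = ι u * ι (π : F) ^ dlOrd V f := by
    conv_lhs => rw [hfu]
    rw [map_mul, map_zpow₀]
  rw [h1, dlOrd_mul V'' hu0 (zpow_ne_zero _ hιπ0), dlOrd_zpow,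
    dlb_ord_pi ι hι V'' V hV hL S hS hgen hπ, (dl_valuation_eq_one_iff V'' hu0).mp hu1'',
    zero_add, mul_one]

end Main

end Fermat.Agent.Delta
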